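import Mathlib
import Fermat.Agent.BR.S0.AnnulusLevels
import Fermat.Agent.BR.S0.AnnulusN2Level

/-!
# Program C (S36), node A7s (SUB-ANNULUS LEVELS): three operations on level data

* `NodeLevel.congrTube`, `AnnulusLevels.congrTube` : transport along an equality of tubes `T' = T`
  (all data unchanged, `rfl`-lemmas);
* `AnnulusLevels.reindex` : re-indexing along a surjection `ι' → ι`;
* `NodeLevel.changeCoord`, `AnnulusLevels.changeCoord` : multiplication of the first coordinate
  (and of `ε₀`) by a unit `η` of all level rings: `(u, v, ε₀) ↦ (u', v, ε₀')` with `u' = u * η`,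
  `ε₀' = ε₀ * η` (the new coordinates are given explicitly, so that they are definitional).
-/

set_option autoImplicit false
set_option linter.unusedSectionVars false

namespace Fermat.Agent.BR3.SubAnnPlaces

open AlgebraicCurve IsLocalRing Fermat.Agent.Red Fermat.Agent.BR.Centre Fermat.Agent.BR.S0

variable {K F : Type*} [Field K] [Field F] [Algebra K F]
  {A : ValuationSubring K} {T T' : Set (Place K F)}

/-! ### Transport along an equality of tubes -/

/-- the same level, for an equal tube -/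
def nodeLevelCongrTube {u v ε₀ : F} {thick : K} (N : NodeLevel A T u v ε₀ thick) (h : T' = T) :
    NodeLevel A T' u v ε₀ thick where
  R := N.R
  K' := N.K'
  ϖ := N.ϖ
  noeth := N.noeth
  intClosed := N.intClosed
  isLocal := N.isLocal
  const_mem := N.const_mem
  unif_mem := N.unif_mem
  unif_ne := N.unif_ne
  unif_lt := N.unif_lt
  unif_max := N.unif_max
  thick_mem := N.thick_mem
  unif_memR := N.unif_memR
  u_mem := N.u_mem
  v_mem := N.v_mem
  ε₀_mem := N.ε₀_mem
  ε₀_inv_mem := N.ε₀_inv_mem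
  nonunit_mem := N.nonunit_mem
  p1 := N.p1
  p2 := N.p2
  prime1 := N.prime1
  prime2 := N.prime2
  unif_mem_p1 := N.unif_mem_p1
  unif_mem_p2 := N.unif_mem_p2
  u_mem_p1 := N.u_mem_p1
  v_mem_p2 := N.v_mem_p2
  v_notMem_p1 := N.v_notMem_p1
  u_notMem_p2 := N.u_notMem_p2
  vertical := N.vertical
  residue := N.residue
  centred := fun P hP => N.centred P (h ▸ hP)
  horiz := fun Q hQ hht hϖ => by
    obtain ⟨P, hP, hx⟩ := N.horiz Q hQ hht hϖ
    exact ⟨P, h ▸ hP, hx⟩
  n2 := N.n2

section

variable {u v ε₀ : F} {thick : K} (N : NodeLevel A T u v ε₀ thick) (h : T' = T)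

@[simp] theorem nodeLevelCongrTube_R : (nodeLevelCongrTube N h).R = N.R := rfl

@[simp] theorem nodeLevelCongrTube_K' : (nodeLevelCongrTube N h).K' = N.K' := rfl

@[simp] theorem nodeLevelCongrTube_ϖ : (nodeLevelCongrTube N h).ϖ = N.ϖ := rfl

@[simp] theorem nodeLevelCongrTube_p1 : (nodeLevelCongrTube N h).p1 = N.p1 := rfl

@[simp] theorem nodeLevelCongrTube_p2 : (nodeLevelCongrTube N h).p2 = N.p2 := rfl

end

/-- the same level data, for an equal tube -/
def levelsCongrTube {ι : Type*} (L : AnnulusLevels A T ι) (h : T' = T) :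
    AnnulusLevels A T' ι where
  u := L.u
  v := L.v
  ε₀ := L.ε₀
  thick := L.thick
  thick_ne := L.thick_ne
  thick_lt := L.thick_lt
  uv := L.uv
  level i := nodeLevelCongrTube (L.level i) h
  directed := L.directed
  frac := L.frac
  const := L.const
  finite_div := L.finite_div

section

variable {ι : Type*} (L : AnnulusLevels A T ι) (h : T' = T)

@[simp] theorem levelsCongrTube_u : (levelsCongrTube L h).u = L.u := rfl

@[simp] theorem levelsCongrTube_v : (levelsCongrTube L h).v = L.v := rfl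

@[simp] theorem levelsCongrTube_ε₀ : (levelsCongrTube L h).ε₀ = L.ε₀ := rfl

@[simp] theorem levelsCongrTube_thick : (levelsCongrTube L h).thick = L.thick := rfl

@[simp] theorem levelsCongrTube_level_R (i : ι) :
    ((levelsCongrTube L h).level i).R = (L.level i).R := rfl

@[simp] theorem levelsCongrTube_level_K' (i : ι) :
    ((levelsCongrTube L h).level i).K' = (L.level i).K' := rfl

@[simp] theorem levelsCongrTube_level_ϖ (i : ι) :
    ((levelsCongrTube L h).level i).ϖ = (L.level i).ϖ := rfl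

@[simp] theorem levelsCongrTube_level_p1 (i : ι) :
    ((levelsCongrTube L h).level i).p1 = (L.level i).p1 := rfl

@[simp] theorem levelsCongrTube_level_p2 (i : ι) :
    ((levelsCongrTube L h).level i).p2 = (L.level i).p2 := rfl

end

/-! ### Re-indexing -/

/-- re-indexing of a family of levels along a surjection -/
def levelsReindex {ι ι' : Type*} (L : AnnulusLevels A T ι) (e : ι' → ι)
    (he : Function.Surjective e) : AnnulusLevels A T ι' where
  u := L.u
  v := L.v
  ε₀ := L.ε₀
  thick := L.thick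
  thick_ne := L.thick_ne
  thick_lt := L.thick_lt
  uv := L.uv
  level j := L.level (e j)
  directed := fun j j' => by
    obtain ⟨l, h1, h2, h3, h4⟩ := L.directed (e j) (e j')
    obtain ⟨l', rfl⟩ := he l
    exact ⟨l', h1, h2, h3, h4⟩
  frac := fun y => by
    obtain ⟨i, a, b, hb, hab⟩ := L.frac y
    obtain ⟨j, rfl⟩ := he i
    exact ⟨j, a, b, hb, hab⟩
  const := fun c => by
    obtain ⟨i, hi⟩ := L.const c
    obtain ⟨j, rfl⟩ := he i
    exact ⟨j, hi⟩
  finite_div := L.finite_div

section

variable {ι ι' : Type*} (L : AnnulusLevels A T ι) (e : ι' → ι) (he : Function.Surjective e)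

@[simp] theorem levelsReindex_u : (levelsReindex L e he).u = L.u := rfl

@[simp] theorem levelsReindex_v : (levelsReindex L e he).v = L.v := rfl

@[simp] theorem levelsReindex_ε₀ : (levelsReindex L e he).ε₀ = L.ε₀ := rfl

@[simp] theorem levelsReindex_thick : (levelsReindex L e he).thick = L.thick := rfl

@[simp] theorem levelsReindex_level (j : ι') :
    (levelsReindex L e he).level j = L.level (e j) := rfl

end

/-! ### Multiplication of the first coordinate by a unit -/

/-- the level with first coordinate `u' = u * η` and unit `ε₀' = ε₀ * η`, `η` a unit of the level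
ring -/
noncomputable def nodeLevelChangeCoord {u v ε₀ : F} {thick : K} (N : NodeLevel A T u v ε₀ thick)
    (thick_ne : thick ≠ 0) (thick_lt : A.valuation thick < 1) (uv : u * v = thick • ε₀)
    (η : F) (hη : η ∈ N.R) (hη' : η⁻¹ ∈ N.R) (hη0 : η ≠ 0) (u' ε₀' : F) (hu' : u' = u * η)
    (hε' : ε₀' = ε₀ * η) : NodeLevel A T u' v ε₀' thick :=
  have hu'mem : u' ∈ N.R := hu' ▸ N.R.mul_mem N.u_mem hη
  have hηu : (⟨u', hu'mem⟩ : N.R) = ⟨u, N.u_mem⟩ * ⟨η, hη⟩ := Subtype.ext hu'
  have hηunit : IsUnit (⟨η, hη⟩ : N.R) :=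
    IsUnit.of_mul_eq_one (⟨η⁻¹, hη'⟩ : N.R) (Subtype.ext (mul_inv_cancel₀ hη0))
  AnnulusN2Level.nodeLevelOfFields A T thick_ne thick_lt
    (show u' * v = thick • ε₀' by
      rw [hu', hε', mul_right_comm, uv, Algebra.smul_def, Algebra.smul_def, mul_assoc])
    N.R N.K' N.ϖ N.noeth N.intClosed N.isLocal N.const_mem N.unif_mem N.unif_ne N.unif_lt
    N.unif_max N.thick_mem N.unif_memR hu'mem N.v_mem (hε' ▸ N.R.mul_mem N.ε₀_mem hη)
    (by rw [hε', mul_inv]; exact N.R.mul_mem N.ε₀_inv_mem hη')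
    (fun x hx => by
      have h := N.nonunit_mem x hx
      have hle : Ideal.span {(⟨algebraMap K F N.ϖ, N.unif_memR⟩ : N.R), ⟨u, N.u_mem⟩,
          ⟨v, N.v_mem⟩} ≤ Ideal.span {(⟨algebraMap K F N.ϖ, N.unif_memR⟩ : N.R),
            ⟨u', hu'mem⟩, ⟨v, N.v_mem⟩} := by
        rw [Ideal.span_le]
        intro y hy
        rcases hy with rfl | rfl | rfl
        · exact Ideal.subset_span (by simp)
        · have e1 : (⟨u, N.u_mem⟩ : N.R) = ⟨u', hu'mem⟩ * ⟨η⁻¹, hη'⟩ := by
            apply Subtype.ext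
            show u = u' * η⁻¹
            rw [hu', mul_assoc, mul_inv_cancel₀ hη0, mul_one]
          rw [e1]
          exact Ideal.mul_mem_right _ _ (Ideal.subset_span (by simp))
        · exact Ideal.subset_span (by simp)
      exact hle h)
    N.p1 N.p2 N.prime1 N.prime2 N.unif_mem_p1 N.unif_mem_p2
    (by rw [hηu]; exact Ideal.mul_mem_right _ _ N.u_mem_p1) N.v_mem_p2 N.v_notMem_p1
    (by
      rw [hηu]
      intro hmem
      rcases N.prime2.mem_or_mem hmem with h | h
      · exact N.u_notMem_p2 h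
      · exact N.prime2.ne_top (Ideal.eq_top_of_isUnit_mem _ h hηunit))
    N.vertical N.residue N.centred N.horiz

section

variable {u v ε₀ : F} {thick : K} (N : NodeLevel A T u v ε₀ thick)
  (thick_ne : thick ≠ 0) (thick_lt : A.valuation thick < 1) (uv : u * v = thick • ε₀)
  (η : F) (hη : η ∈ N.R) (hη' : η⁻¹ ∈ N.R) (hη0 : η ≠ 0) (u' ε₀' : F) (hu' : u' = u * η)
  (hε' : ε₀' = ε₀ * η)

@[simp] theorem nodeLevelChangeCoord_R :
    (nodeLevelChangeCoord N thick_ne thick_lt uv η hη hη' hη0 u' ε₀' hu' hε').R = N.R := rfl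

@[simp] theorem nodeLevelChangeCoord_K' :
    (nodeLevelChangeCoord N thick_ne thick_lt uv η hη hη' hη0 u' ε₀' hu' hε').K' = N.K' := rfl

@[simp] theorem nodeLevelChangeCoord_ϖ :
    (nodeLevelChangeCoord N thick_ne thick_lt uv η hη hη' hη0 u' ε₀' hu' hε').ϖ = N.ϖ := rfl

@[simp] theorem nodeLevelChangeCoord_p1 :
    (nodeLevelChangeCoord N thick_ne thick_lt uv η hη hη' hη0 u' ε₀' hu' hε').p1 = N.p1 := rfl

@[simp] theorem nodeLevelChangeCoord_p2 :
    (nodeLevelChangeCoord N thick_ne thick_lt uv η hη hη' hη0 u' ε₀' hu' hε').p2 = N.p2 := rfl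

end

/-- the level data with first coordinate `u' = u * η` and unit `ε₀' = ε₀ * η`, `η` a unit of all
the level rings -/
noncomputable def levelsChangeCoord {ι : Type*} (L : AnnulusLevels A T ι) (η : F)
    (hη : ∀ i, η ∈ (L.level i).R) (hη' : ∀ i, η⁻¹ ∈ (L.level i).R) (hη0 : η ≠ 0) (u' ε₀' : F)
    (hu' : u' = L.u * η) (hε' : ε₀' = L.ε₀ * η) : AnnulusLevels A T ι where
  u := u'
  v := L.v
  ε₀ := ε₀'
  thick := L.thick
  thick_ne := L.thick_ne
  thick_lt := L.thick_lt
  uv := by
    rw [hu', hε', mul_right_comm, L.uv, Algebra.smul_def, Algebra.smul_def, mul_assoc]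
  level i := nodeLevelChangeCoord (L.level i) L.thick_ne L.thick_lt L.uv η (hη i) (hη' i) hη0
    u' ε₀' hu' hε'
  directed := L.directed
  frac := L.frac
  const := L.const
  finite_div := L.finite_div

section

variable {ι : Type*} (L : AnnulusLevels A T ι) (η : F)
  (hη : ∀ i, η ∈ (L.level i).R) (hη' : ∀ i, η⁻¹ ∈ (L.level i).R) (hη0 : η ≠ 0) (u' ε₀' : F)
  (hu' : u' = L.u * η) (hε' : ε₀' = L.ε₀ * η)

@[simp] theorem levelsChangeCoord_u :
    (levelsChangeCoord L η hη hη' hη0 u' ε₀' hu' hε').u = u' := rfl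

@[simp] theorem levelsChangeCoord_v :
    (levelsChangeCoord L η hη hη' hη0 u' ε₀' hu' hε').v = L.v := rfl

@[simp] theorem levelsChangeCoord_ε₀ :
    (levelsChangeCoord L η hη hη' hη0 u' ε₀' hu' hε').ε₀ = ε₀' := rfl

@[simp] theorem levelsChangeCoord_thick :
    (levelsChangeCoord L η hη hη' hη0 u' ε₀' hu' hε').thick = L.thick := rfl

@[simp] theorem levelsChangeCoord_level_R (i : ι) :
    ((levelsChangeCoord L η hη hη' hη0 u' ε₀' hu' hε').level i).R = (L.level i).R := rfl

@[simp] theorem levelsChangeCoord_level_K' (i : ι) :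
    ((levelsChangeCoord L η hη hη' hη0 u' ε₀' hu' hε').level i).K' = (L.level i).K' := rfl

@[simp] theorem levelsChangeCoord_level_ϖ (i : ι) :
    ((levelsChangeCoord L η hη hη' hη0 u' ε₀' hu' hε').level i).ϖ = (L.level i).ϖ := rfl

@[simp] theorem levelsChangeCoord_level_p1 (i : ι) :
    ((levelsChangeCoord L η hη hη' hη0 u' ε₀' hu' hε').level i).p1 = (L.level i).p1 := rfl

@[simp] theorem levelsChangeCoord_level_p2 (i : ι) :
    ((levelsChangeCoord L η hη hη' hη0 u' ε₀' hu' hε').level i).p2 = (L.level i).p2 := rfl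

end

end Fermat.Agent.BR3.SubAnnPlaces
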