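import Mathlib
import Fermat.Agent.BR3.SubAnnChart.Level

/-!
# Program C (S36), node A7s (SUB-ANNULUS LEVELS), branch side, part 1: domination by a component

`H : SubAnnChart.SubHyp NL r` (the chart `NL.R[Y]`, `Y = r • u⁻¹`, of a level `NL`, localised at
`(ϖ, u, Y)`: `H.subRing`).  `V` a valuation subring of `F` with residue map `ρ : V →+* κ`
(kernel = non-units) and `w` a valuation of the residue field `κ` ("a point of the component
`V`").  If the level ring `NL.R` lies in `V`, its reductions are `w`-integral, the reductions of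
its non-units and of `Y` are `w`-small, then the same holds for the new local ring `H.subRing`:

* `subRing_dominated` : `H.subRing ≤ V`, `w (ρ y) ≤ 1` on `H.subRing` and
  `w (ρ y) < 1` for the non-units `y` of `H.subRing`.

This is the common engine of the four branch statements of the two sub-annuli (source component /
circle at `X = ∞`, circle at `X = 0` / target component).
-/

set_option autoImplicit false
set_option linter.unusedSectionVars false

namespace Fermat.Agent.BR3.SubAnnPlaces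

open AlgebraicCurve IsLocalRing Fermat.Agent.Red Fermat.Agent.BR.Centre Fermat.Agent.BR.S0
  Fermat.Agent.BR3.SubAnnChart Fermat.Agent.BR.Inst.LocSub

variable {K F : Type*} [Field K] [Field F] [Algebra K F]
  {A : ValuationSubring K} {T : Set (Place K F)} {u v ε₀ : F} {thick : K}
  {NL : NodeLevel A T u v ε₀ thick} {r : K}

section

variable (V : ValuationSubring F) {κ : Type*} [Field κ] (ρ : V →+* κ)
  {Γ₀ : Type*} [LinearOrderedCommGroupWithZero Γ₀] (w : Valuation κ Γ₀)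

/-- `x ∈ V` with `w`-integral reduction -/
def RegAt (x : F) : Prop := ∃ hx : x ∈ V, w (ρ ⟨x, hx⟩) ≤ 1

/-- `x ∈ V` with `w`-small reduction -/
def SmallAt (x : F) : Prop := ∃ hx : x ∈ V, w (ρ ⟨x, hx⟩) < 1

variable {V ρ w}

theorem SmallAt.regAt {x : F} (h : SmallAt V ρ w x) : RegAt V ρ w x := ⟨h.1, h.2.le⟩

theorem regAt_zero : RegAt V ρ w 0 := ⟨V.zero_mem, by
  have : (⟨0, V.zero_mem⟩ : V) = 0 := rfl
  rw [this, map_zero, map_zero]; exact zero_le_one⟩

theorem regAt_one : RegAt V ρ w 1 := ⟨V.one_mem, by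
  have : (⟨1, V.one_mem⟩ : V) = 1 := rfl
  rw [this, map_one, map_one]⟩

theorem RegAt.add {x y : F} (hx : RegAt V ρ w x) (hy : RegAt V ρ w y) : RegAt V ρ w (x + y) := by
  obtain ⟨hx, hx'⟩ := hx
  obtain ⟨hy, hy'⟩ := hy
  refine ⟨V.add_mem _ _ hx hy, ?_⟩
  have : (⟨x + y, V.add_mem _ _ hx hy⟩ : V) = ⟨x, hx⟩ + ⟨y, hy⟩ := rfl
  rw [this, map_add]
  exact (w.map_add _ _).trans (max_le hx' hy')

theorem RegAt.neg {x : F} (hx : RegAt V ρ w x) : RegAt V ρ w (-x) := by
  obtain ⟨hx, hx'⟩ := hx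
  refine ⟨V.neg_mem _ hx, ?_⟩
  have : (⟨-x, V.neg_mem _ hx⟩ : V) = -⟨x, hx⟩ := rfl
  rw [this, map_neg, Valuation.map_neg]
  exact hx'

theorem RegAt.mul {x y : F} (hx : RegAt V ρ w x) (hy : RegAt V ρ w y) : RegAt V ρ w (x * y) := by
  obtain ⟨hx, hx'⟩ := hx
  obtain ⟨hy, hy'⟩ := hy
  refine ⟨V.mul_mem _ _ hx hy, ?_⟩
  have : (⟨x * y, V.mul_mem _ _ hx hy⟩ : V) = ⟨x, hx⟩ * ⟨y, hy⟩ := rfl
  rw [this, map_mul, map_mul]
  exact mul_le_one' hx' hy'

theorem SmallAt.add {x y : F} (hx : SmallAt V ρ w x) (hy : SmallAt V ρ w y) :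
    SmallAt V ρ w (x + y) := by
  obtain ⟨hx, hx'⟩ := hx
  obtain ⟨hy, hy'⟩ := hy
  refine ⟨V.add_mem _ _ hx hy, ?_⟩
  have : (⟨x + y, V.add_mem _ _ hx hy⟩ : V) = ⟨x, hx⟩ + ⟨y, hy⟩ := rfl
  rw [this, map_add]
  exact lt_of_le_of_lt (w.map_add _ _) (max_lt hx' hy')

theorem RegAt.mul_small {x y : F} (hx : RegAt V ρ w x) (hy : SmallAt V ρ w y) :
    SmallAt V ρ w (x * y) := by
  obtain ⟨hx, hx'⟩ := hx
  obtain ⟨hy, hy'⟩ := hy
  refine ⟨V.mul_mem _ _ hx hy, ?_⟩
  have : (⟨x * y, V.mul_mem _ _ hx hy⟩ : V) = ⟨x, hx⟩ * ⟨y, hy⟩ := rfl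
  rw [this, map_mul, map_mul]
  exact mul_lt_one_of_nonneg_of_lt_one_right hx' zero_le hy'

theorem smallAt_zero : SmallAt V ρ w 0 := ⟨V.zero_mem, by
  have : (⟨0, V.zero_mem⟩ : V) = 0 := rfl
  rw [this, map_zero, map_zero]; exact zero_lt_one⟩

theorem not_smallAt_one : ¬ SmallAt V ρ w 1 := by
  rintro ⟨h, h'⟩
  have : (⟨1, h⟩ : V) = 1 := rfl
  rw [this, map_one, map_one] at h'
  exact lt_irrefl _ h'

end

variable (V : ValuationSubring F) {κ : Type*} [Field κ] (ρ : V →+* κ)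
  (hρ : ∀ x : V, ρ x = 0 ↔ ¬ IsUnit x)
  {Γ₀ : Type*} [LinearOrderedCommGroupWithZero Γ₀] (w : Valuation κ Γ₀)

include hρ in
/-- an element of `V` whose reduction is a `w`-unit has an inverse in `V` with `w`-integral
reduction -/
theorem regAt_inv_of_unit {x : F} (hx : x ∈ V) (hw : w (ρ ⟨x, hx⟩) = 1) : RegAt V ρ w x⁻¹ := by
  have h0 : ρ ⟨x, hx⟩ ≠ 0 := by
    intro h0
    rw [h0, map_zero] at hw
    exact zero_ne_one hw
  have hu : IsUnit (⟨x, hx⟩ : V) := by
    by_contra hnu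
    exact h0 ((hρ _).mpr hnu)
  obtain ⟨y, hy⟩ := hu.exists_right_inv
  have hx0 : x ≠ 0 := by
    rintro rfl
    apply h0
    have : (⟨0, hx⟩ : V) = 0 := rfl
    rw [this, map_zero]
  have hyx : (y : F) = x⁻¹ := by
    have h1 : x * (y : F) = 1 := congrArg Subtype.val hy
    exact eq_inv_of_mul_eq_one_right h1
  have hmem : x⁻¹ ∈ V := hyx ▸ y.2
  refine ⟨hmem, ?_⟩
  have h2 : (⟨x, hx⟩ : V) * ⟨x⁻¹, hmem⟩ = 1 := Subtype.ext (mul_inv_cancel₀ hx0)
  have h3 := congrArg (fun z => w (ρ z)) h2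
  simp only [map_mul, map_one, hw, one_mul] at h3
  exact h3.le

include hρ in
/-- **Domination.**  The new local ring of the sub-annulus lies in `V`, its reductions are
`w`-integral, and the reductions of its non-units are `w`-small. -/
theorem subRing_dominated (H : SubHyp NL r)
    (hreg : ∀ y ∈ NL.R, RegAt V ρ w y)
    (hnu : ∀ y : NL.R, ¬ IsUnit y → SmallAt V ρ w (y : F))
    (hY : SmallAt V ρ w (r • u⁻¹)) :
    (∀ y ∈ H.subRing, RegAt V ρ w y) ∧
      ∀ y : H.subRing, ¬ IsUnit y → SmallAt V ρ w (y : F) := by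
  classical
  have hp : (subPt NL r).IsPrime := H.subPt_isPrime
  -- the chart ring
  have hB : ∀ x ∈ chartRing NL.R (r • u⁻¹), RegAt V ρ w x := by
    intro x hx
    rw [chartRing_eq_closure] at hx
    induction hx using Subring.closure_induction with
    | mem y hy =>
      rcases hy with hy | hy
      · exact hreg y hy
      · rw [Set.mem_singleton_iff.mp hy]; exact hY.regAt
    | zero => exact regAt_zero
    | one => exact regAt_one
    | add _ _ _ _ hx hy => exact hx.add hy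
    | neg _ _ hx => exact hx.neg
    | mul _ _ _ _ hx hy => exact hx.mul hy
  -- the ideal of the small elements of the chart ring
  let I : Ideal (chartRing NL.R (r • u⁻¹)) :=
    { carrier := {b | SmallAt V ρ w (b : F)}
      add_mem' := fun ha hb => ha.add hb
      zero_mem' := smallAt_zero
      smul_mem' := fun c b hb => (hB c c.2).mul_small hb }
  have hI : subPt NL r ≤ I := by
    rw [subPt, ChartCore.ptIdeal, Ideal.span_le, Set.insert_subset_iff, Set.insert_subset_iff,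
      Set.singleton_subset_iff]
    refine ⟨?_, ?_, ?_⟩
    · exact hnu NL.πR NL.not_isUnit_πR
    · exact hnu NL.uR NL.not_isUnit_uR
    · exact hY
  have hItop : I ≠ ⊤ := by
    intro htop
    have : (1 : chartRing NL.R (r • u⁻¹)) ∈ I := by rw [htop]; exact Submodule.mem_top
    exact not_smallAt_one this
  have hIeq : subPt NL r = I := H.subPt_isMaximal.eq_of_le hItop hI
  -- elements outside the point are `w`-units
  have hunit : ∀ b : chartRing NL.R (r • u⁻¹), b ∉ subPt NL r →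
      ∃ hb : (b : F) ∈ V, w (ρ ⟨b, hb⟩) = 1 := by
    intro b hb
    obtain ⟨hbV, hle⟩ := hB b b.2
    refine ⟨hbV, le_antisymm hle (not_lt.mp fun hlt => hb ?_)⟩
    rw [hIeq]
    exact ⟨hbV, hlt⟩
  have hsub : ∀ y ∈ H.subRing, RegAt V ρ w y := by
    intro y hy
    obtain ⟨a, b, hb, hab⟩ := H.mem_subRing_iff.mp hy
    obtain ⟨hbV, hbw⟩ := hunit b hb
    have hb0 : (b : F) ≠ 0 := coe_ne_zero_of_notMem hb
    have hy' : y = (a : F) * ((b : F))⁻¹ := by
      rw [← hab, mul_assoc, mul_inv_cancel₀ hb0, mul_one]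
    rw [hy']
    exact (hB a a.2).mul (regAt_inv_of_unit V ρ hρ w hbV hbw)
  refine ⟨hsub, fun y hy => ?_⟩
  have hmem := H.nonunit_mem_subRing y hy
  obtain ⟨c₁, z₁, hz₁, e₁⟩ := Ideal.mem_span_insert.mp hmem
  obtain ⟨c₂, z₂, hz₂, e₂⟩ := Ideal.mem_span_insert.mp hz₁
  obtain ⟨c₃, e₃⟩ := Ideal.mem_span_singleton'.mp hz₂
  have hy' : (y : F) = (c₁ : F) * algebraMap K F NL.ϖ + ((c₂ : F) * u + (c₃ : F) * (r • u⁻¹)) := by
    rw [e₁, e₂, ← e₃]
    rfl
  rw [hy']
  exact ((hsub c₁ c₁.2).mul_small (hnu NL.πR NL.not_isUnit_πR)).add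
    (((hsub c₂ c₂.2).mul_small (hnu NL.uR NL.not_isUnit_uR)).add
      ((hsub c₃ c₃.2).mul_small hY))

end Fermat.Agent.BR3.SubAnnPlaces
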