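import Mathlib
import Fermat.Agent.BR3.SubAnnPlaces.Ops
import Fermat.Agent.BR3.SubAnnChart.Family
import Fermat.Agent.BR3.SRef.SubAnnulus
import Fermat.Agent.BR.S0.AnnulusSwap

/-!
# Program C (S36), node A7s (SUB-ANNULUS LEVELS): the two sub-annuli of an annulus with levels

`L : S0.AnnulusLevels A T ι`, `r : K` a radius with `|L.thick| < |r| < 1`.

* OUTER sub-annulus `{|r| < |u| < 1}` (helper5's `SubAnnChart.subLevels`): its tube is
  `SRef.outerTube L.core r` (`subTube_eq_outerTube`, `rfl`) and its K-level contract is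
  `SRef.outerCore L.core r` (`core_subLevels`, `rfl`);
* INNER sub-annulus `{|L.thick| < |u| < |r|}` : `innerLevels L r h1 h2 hT hPL :
  AnnulusLevels A (SRef.innerTube L.core r) {i // r ∈ (L.level i).K'}` with coordinates
  `(r⁻¹ • L.u, L.v)`, unit `L.ε₀`, thickness `r⁻¹ * L.thick` (all `rfl`), same constant fields and
  uniformizers, level rings `innerRing L r h1 h2 i hi ⊇ (L.level i).R` (X2), converse of centred
  (X1), K-level contract `SRef.innerCore L.core r` (`core_innerLevels`, `rfl`).
  Construction: the outer levels of `L.swap` at the radius `r⁻¹ * L.thick`, swapped back, first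
  coordinate multiplied by the unit `L.ε₀`.
-/

set_option autoImplicit false
set_option linter.unusedSectionVars false

noncomputable section

namespace Fermat.Agent.BR3.SubAnnPlaces

open AlgebraicCurve IsLocalRing Fermat.Agent.Red Fermat.Agent.BR.Centre Fermat.Agent.BR.S0
  Fermat.Agent.BR.Circle Fermat.Agent.BR3.SubAnnChart Fermat.Agent.BR3.SRef

variable {K : Type} {F : Type*} [Field K] [Field F] [Algebra K F]
  {A : ValuationSubring K} [IsAlgClosed (ResidueField A)] {T : Set (Place K F)} {ι : Type*}
  (L : AnnulusLevels A T ι) (r : K)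
  (h1 : A.valuation L.thick < A.valuation r) (h2 : A.valuation r < 1)

/-! ### The outer sub-annulus -/

/-- helper5's tube of the outer sub-annulus is helper14's `outerTube` -/
theorem subTube_eq_outerTube : subTube A T L.u r = outerTube L.core r := rfl

section Outer

variable (hT : ∀ (i : ι) (P : Place K F), CentredAt A (L.level i).R P → P ∈ T)
  (hPL : ∀ (i : ι) (hi : r ∈ (L.level i).K') (p : Ideal (subHyp L h1 h2 i hi).subRing),
    p.IsPrime → p ≠ ⊥ →
    (⟨algebraMap K F (L.level i).ϖ, (subHyp L h1 h2 i hi).unif_mem_subRing⟩ :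
      (subHyp L h1 h2 i hi).subRing) ∉ p →
    ∃ P : Place K F, CentredAt A (subHyp L h1 h2 i hi).subRing P ∧
      ∀ y : (subHyp L h1 h2 i hi).subRing, evalAt P (y : F) = 0 ↔ y ∈ p)

/-- the K-level contract of the outer levels is helper14's `outerCore` -/
theorem core_subLevels : (subLevels L h1 h2 hT hPL).core = outerCore L.core r h1 h2 := rfl

end Outer

/-! ### The inner sub-annulus -/

include h1 h2

theorem inner_h1 : A.valuation L.swap.thick < A.valuation (r⁻¹ * L.thick) := by
  have hr0 : r ≠ 0 := by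
    intro h0
    rw [h0, map_zero] at h1
    exact not_lt_zero h1
  have hpos : 0 < A.valuation r := zero_lt_iff.mpr ((Valuation.ne_zero_iff _).mpr hr0)
  have htpos : 0 < A.valuation L.thick :=
    zero_lt_iff.mpr ((Valuation.ne_zero_iff _).mpr L.thick_ne)
  rw [AnnulusLevels.swap_thick, map_mul, map_inv₀]
  have h3 : 1 < (A.valuation r)⁻¹ := (one_lt_inv₀ hpos).mpr h2
  calc A.valuation L.thick = 1 * A.valuation L.thick := (one_mul _).symm
    _ < (A.valuation r)⁻¹ * A.valuation L.thick := mul_lt_mul_of_pos_right h3 htpos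

theorem inner_h2 : A.valuation (r⁻¹ * L.thick) < 1 := by
  have hr0 : r ≠ 0 := by
    intro h0
    rw [h0, map_zero] at h1
    exact not_lt_zero h1
  have hpos : 0 < A.valuation r := zero_lt_iff.mpr ((Valuation.ne_zero_iff _).mpr hr0)
  rw [map_mul, map_inv₀, inv_mul_eq_div, div_lt_one₀ hpos]
  exact h1

omit h1 h2 in
theorem inner_mem {i : ι} (hi : r ∈ (L.level i).K') : r⁻¹ * L.thick ∈ (L.swap.level i).K' :=
  (L.level i).K'.mul_mem ((L.level i).K'.inv_mem hi) (L.level i).thick_mem

omit h2 in
theorem mem_of_inner_mem {i : ι} (hi : r⁻¹ * L.thick ∈ (L.level i).K') : r ∈ (L.level i).K' := by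
  have hr0 : r ≠ 0 := by
    intro h0
    rw [h0, map_zero] at h1
    exact not_lt_zero h1
  have h3 : (r⁻¹ * L.thick)⁻¹ * L.thick = r := by
    rw [mul_inv, inv_inv, mul_assoc, inv_mul_cancel₀ L.thick_ne, mul_one]
  have h4 := (L.level i).K'.mul_mem ((L.level i).K'.inv_mem hi) (L.level i).thick_mem
  rwa [h3] at h4

/-- the hypotheses of the sub-annulus chart for the swapped levels at the radius `r⁻¹ * thick` -/
theorem innerHyp {i : ι} (hi : r ∈ (L.level i).K') :
    SubHyp (L.swap.level i) (r⁻¹ * L.thick) :=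
  subHyp L.swap (inner_h1 L r h1 h2) (inner_h2 L r h1 h2) i (inner_mem L r hi)

/-- the local ring of the level `i` of the inner sub-annulus -/
abbrev innerRing {i : ι} (hi : r ∈ (L.level i).K') : Subring F := (innerHyp L r h1 h2 hi).subRing

/-- **(X2)** the old level ring is contained in the new one -/
theorem le_innerRing {i : ι} (hi : r ∈ (L.level i).K') : (L.level i).R ≤ innerRing L r h1 h2 hi :=
  (innerHyp L r h1 h2 hi).le_subRing

theorem unif_mem_innerRing {i : ι} (hi : r ∈ (L.level i).K') :
    algebraMap K F (L.level i).ϖ ∈ innerRing L r h1 h2 hi :=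
  (innerHyp L r h1 h2 hi).unif_mem_subRing

/-- the tube of the inner sub-annulus, in the two descriptions -/
theorem innerTube_eq_subTube : innerTube L.core r = subTube A T L.swap.u (r⁻¹ * L.thick) := by
  have hr0 : r ≠ 0 := by
    intro h0
    rw [h0, map_zero] at h1
    exact not_lt_zero h1
  have hpos : 0 < A.valuation r := zero_lt_iff.mpr ((Valuation.ne_zero_iff _).mpr hr0)
  ext P
  rw [mem_innerTube_iff, mem_subTube_iff]
  refine and_congr_right fun hP => ?_
  obtain ⟨i⟩ := L.nonempty
  have h3 := congrArg A.valuation (L.evalAt_u_mul_evalAt_v hP i)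
  rw [map_mul, map_mul, L.valuation_evalAt_ε₀ hP i, mul_one] at h3
  have hv0 : A.valuation (evalAt P L.v) ≠ 0 := by
    intro h0
    rw [h0, mul_zero] at h3
    exact (Valuation.ne_zero_iff _).mpr L.thick_ne h3.symm
  have hvpos : 0 < A.valuation (evalAt P L.v) := zero_lt_iff.mpr hv0
  show A.valuation (evalAt P L.u) < A.valuation r ↔
    A.valuation (r⁻¹ * L.thick) < A.valuation (evalAt P L.v)
  rw [map_mul, map_inv₀, inv_mul_eq_div, div_lt_iff₀ hpos, ← h3, mul_comm (A.valuation (evalAt P L.v))]
  exact (mul_lt_mul_iff_of_pos_right hvpos).symm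

section Inner

variable (hT : ∀ (i : ι) (P : Place K F), CentredAt A (L.level i).R P → P ∈ T)
  (hPL : ∀ (i : ι) (hi : r ∈ (L.level i).K') (p : Ideal (innerRing L r h1 h2 hi)),
    p.IsPrime → p ≠ ⊥ →
    (⟨algebraMap K F (L.level i).ϖ, unif_mem_innerRing L r h1 h2 hi⟩ :
      innerRing L r h1 h2 hi) ∉ p →
    ∃ P : Place K F, CentredAt A (innerRing L r h1 h2 hi) P ∧
      ∀ y : innerRing L r h1 h2 hi, evalAt P (y : F) = 0 ↔ y ∈ p)

/-- the outer levels of the swapped annulus at the radius `r⁻¹ * thick` -/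
def innerAux : AnnulusLevels A (subTube A T L.swap.u (r⁻¹ * L.thick))
    {i : ι // r⁻¹ * L.thick ∈ (L.swap.level i).K'} :=
  subLevels L.swap (inner_h1 L r h1 h2) (inner_h2 L r h1 h2) hT
    (fun i hi p hp hp0 hϖ => hPL i (mem_of_inner_mem L r h1 hi) p hp hp0 hϖ)

omit h1 h2 in
/-- the index map -/
def innerIdx : {i : ι // r ∈ (L.level i).K'} → {i : ι // r⁻¹ * L.thick ∈ (L.swap.level i).K'} :=
  fun i => ⟨i.1, inner_mem L r i.2⟩

theorem innerIdx_surjective : Function.Surjective (innerIdx L r) := by
  rintro ⟨i, hi⟩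
  exact ⟨⟨i, mem_of_inner_mem L r h1 hi⟩, rfl⟩

/-- **The levels of the inner sub-annulus `{|thick| < |u| < |r|}`**: coordinates
`(r⁻¹ • L.u, L.v)`, unit `L.ε₀`, thickness `r⁻¹ * L.thick`; same constant fields and uniformizers,
local rings `innerRing ⊇ (L.level i).R`.  `hT` is the converse of `centred` for `L`, `hPL` the
K-point existence lemma on the new rings. -/
def innerLevels : AnnulusLevels A (innerTube L.core r) {i : ι // r ∈ (L.level i).K'} :=
  levelsReindex
    (levelsCongrTube
      (levelsChangeCoord (innerAux L r h1 h2 hT hPL).swap L.ε₀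
        (fun i => (innerHyp L r h1 h2 (i := i.1) (mem_of_inner_mem L r h1 i.2)).le_subRing (L.level i.1).ε₀_mem)
        (fun i => (innerHyp L r h1 h2 (i := i.1) (mem_of_inner_mem L r h1 i.2)).le_subRing (L.level i.1).ε₀_inv_mem)
        (by
          intro h0
          have h3 := L.uv
          rw [h0, smul_zero] at h3
          rcases mul_eq_zero.mp h3 with h | h
          · exact L.u_ne_zero h
          · exact L.swap.u_ne_zero h)
        (r⁻¹ • L.u) L.ε₀
        (by
          have hv0 : L.v ≠ 0 := L.swap.u_ne_zero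
          show r⁻¹ • L.u = ((r⁻¹ * L.thick) • L.v⁻¹) * L.ε₀
          have h3 : L.u * L.v = algebraMap K F L.thick * L.ε₀ := by
            rw [L.uv, Algebra.smul_def]
          rw [Algebra.smul_def, Algebra.smul_def, map_mul]
          have h4 : L.u = algebraMap K F L.thick * L.ε₀ * L.v⁻¹ := by
            rw [← h3, mul_assoc, mul_inv_cancel₀ hv0, mul_one]
          conv_lhs => rw [h4]
          ring)
        (by show L.ε₀ = 1 * L.ε₀; rw [one_mul]))
      (innerTube_eq_subTube L r h1 h2))
    (innerIdx L r) (innerIdx_surjective L r h1 h2)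

@[simp] theorem innerLevels_u : (innerLevels L r h1 h2 hT hPL).u = r⁻¹ • L.u := rfl

@[simp] theorem innerLevels_v : (innerLevels L r h1 h2 hT hPL).v = L.v := rfl

@[simp] theorem innerLevels_ε₀ : (innerLevels L r h1 h2 hT hPL).ε₀ = L.ε₀ := rfl

@[simp] theorem innerLevels_thick : (innerLevels L r h1 h2 hT hPL).thick = r⁻¹ * L.thick := rfl

@[simp] theorem innerLevels_level_R (i : {i : ι // r ∈ (L.level i).K'}) :
    ((innerLevels L r h1 h2 hT hPL).level i).R = innerRing L r h1 h2 i.2 := rfl

@[simp] theorem innerLevels_level_K' (i : {i : ι // r ∈ (L.level i).K'}) :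
    ((innerLevels L r h1 h2 hT hPL).level i).K' = (L.level i.1).K' := rfl

@[simp] theorem innerLevels_level_ϖ (i : {i : ι // r ∈ (L.level i).K'}) :
    ((innerLevels L r h1 h2 hT hPL).level i).ϖ = (L.level i.1).ϖ := rfl

/-- **(X2)** the old level ring is contained in the new one -/
theorem le_innerLevels_level_R (i : {i : ι // r ∈ (L.level i).K'}) :
    (L.level i.1).R ≤ ((innerLevels L r h1 h2 hT hPL).level i).R :=
  le_innerRing L r h1 h2 i.2

/-- **(X1)** the converse of `centred` for the levels of the inner sub-annulus -/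
theorem mem_innerTube_of_centredAt_innerLevels (i : {i : ι // r ∈ (L.level i).K'})
    {P : Place K F} (hc : CentredAt A ((innerLevels L r h1 h2 hT hPL).level i).R P) :
    P ∈ innerTube L.core r := by
  rw [innerTube_eq_subTube L r h1 h2]
  exact (innerHyp L r h1 h2 i.2).mem_subTube_of_centredAt (hT i.1) hc

/-- the K-level contract of the inner levels is helper14's `innerCore` -/
theorem core_innerLevels :
    (innerLevels L r h1 h2 hT hPL).core = innerCore L.core r h1 h2 := rfl

end Inner

end Fermat.Agent.BR3.SubAnnPlaces
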