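import Mathlib
import Fermat.Agent.BR3.SubAnnPlaces.Dominate
import Fermat.Agent.BR3.SubAnnPlaces.Inner
import Fermat.Agent.BR.Circle.Basic
import Fermat.Agent.BR.Circle.DenseLevel
import Fermat.Agent.BR.P1Places
import Fermat.Agent.BR.ZeroCount

/-!
# Program C (S36), node A7s (SUB-ANNULUS LEVELS), branch side, part 2: the circle `|u| = |a|`

`L : S0.AnnulusLevels A T ι`, `C : Circle.AnnulusCore A T` ANY K-level core with `C.u = L.u` (e.g.
`L.core`, or `(I.ch e).toCore` of a chart built from `L`), `a` a gauge, `V = circleRing C a`,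
`ρ = circleRes C a : V →+* RatFunc k`.

* `level_mem_circle`, `circleRes_level_const`, `circleRes_level_eq_zero` : the level rings lie in
  `V`, reduce to constants, their non-units to `0`;
* `gaugeInv_mem_circle`, `circleRes_gaugeInv` : `a • u⁻¹ ↦ X⁻¹`;  `coord_mem_circle'`,
  `circleRes_coord'` : `a⁻¹ • u ↦ X`;
* `outer_circle` : the local rings of the OUTER sub-annulus lie in `V`, their reductions are regular
  at `X = ∞`, the reductions of their non-units vanish at `X = ∞`, and `a • u⁻¹` reduces to a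
  uniformizer at `X = ∞`;
* `inner_circle` : the local rings of the INNER sub-annulus lie in `V`, regular at `X = 0`, non-units
  vanish at `X = 0`, and `a⁻¹ • u` reduces to the uniformizer `X` at `X = 0`.
-/

set_option autoImplicit false
set_option linter.unusedSectionVars false

noncomputable section

namespace Fermat.Agent.BR3.SubAnnPlaces

open AlgebraicCurve IsLocalRing Fermat.Agent.Red Fermat.Agent.BR.Centre Fermat.Agent.BR.S0
  Fermat.Agent.BR.Circle Fermat.Agent.BR.P1 Fermat.Agent.BR3.SubAnnChart Fermat.Agent.BR3.SRef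

variable {K : Type} {F : Type*} [Field K] [Field F] [Algebra K F]
  {A : ValuationSubring K} [IsAlgClosed (ResidueField A)] {T : Set (Place K F)} {ι : Type*}
  (L : AnnulusLevels A T ι) (C : AnnulusCore A T) (hC : C.u = L.u) (a : K)
  (ha1 : A.valuation C.thick < A.valuation a) (ha2 : A.valuation a < 1)

local notation "k" => ResidueField A

include hC

/-- the level rings lie in the ring of every circle of the annulus -/
theorem level_mem_circle {i : ι} {y : F} (hy : y ∈ (L.level i).R) :
    y ∈ circleRing C a ha1 ha2 := by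
  refine mem_circleRing_of_integral (C := C) ha1 ha2 fun P hP => ?_
  exact ⟨evalAt P y, (L.level i).evalAt_memA hP hy, (L.level i).isValueAt_evalAt hP hy⟩

/-- the non-units of a level reduce to `0` on the circle -/
theorem circleRes_level_eq_zero {i : ι} {y : (L.level i).R} (hy : ¬ IsUnit y) :
    circleRes C a ha1 ha2 ⟨(y : F), level_mem_circle L C hC a ha1 ha2 y.2⟩ = 0 := by
  classical
  rw [circleRes_eq_zero_iff]
  intro hu
  obtain ⟨z, hz⟩ := hu.exists_right_inv
  obtain ⟨zb, E, hE⟩ := z.2
  obtain ⟨P, hP, hv, hn⟩ := exists_generic_point C a ha1 ha2 E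
  obtain ⟨d', hd', h1, -⟩ := hE P hP hv hn
  have h2 : IsValueAt P (y : F) (evalAt P (y : F)) := (L.level i).isValueAt_evalAt hP y.2
  have h3 : IsValueAt P ((y : F) * (z : F)) (evalAt P (y : F) * d') := h2.mul h1
  have h4 : (y : F) * (z : F) = 1 := congrArg Subtype.val hz
  rw [h4] at h3
  have h5 : evalAt P (y : F) * d' = 1 := (h3.unique (isValueAt_one P))
  have h6 := congrArg A.valuation h5
  rw [map_mul, map_one] at h6
  have h7 : A.valuation (evalAt P (y : F)) < 1 := (L.level i).valuation_evalAt_lt_one hP hy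
  have h8 : A.valuation d' ≤ 1 := (A.valuation_le_one_iff _).mpr hd'
  have : A.valuation (evalAt P (y : F)) * A.valuation d' < 1 :=
    mul_lt_one_of_nonneg_of_lt_one_left zero_le h7 h8
  rw [h6] at this
  exact lt_irrefl _ this

/-- the functions of a level reduce to constants on the circle -/
theorem circleRes_level_const {i : ι} (y : (L.level i).R) :
    ∃ c : k, circleRes C a ha1 ha2 ⟨(y : F), level_mem_circle L C hC a ha1 ha2 y.2⟩ =
      algebraMap k (RatFunc k) c := by
  obtain ⟨c, h, hnu⟩ := (L.level i).residue y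
  refine ⟨residue A c, ?_⟩
  have h1 : (⟨(y : F), level_mem_circle L C hC a ha1 ha2 y.2⟩ : circleRing C a ha1 ha2) =
      ⟨((y - ⟨algebraMap K F c, h⟩ : (L.level i).R) : F),
        level_mem_circle L C hC a ha1 ha2 (y - ⟨algebraMap K F c, h⟩).2⟩ +
      ⟨algebraMap K F c, level_mem_circle L C hC a ha1 ha2 h⟩ := by
    apply Subtype.ext
    show (y : F) = ((y : F) - algebraMap K F c) + algebraMap K F c
    ring
  rw [h1, map_add, circleRes_level_eq_zero L C hC a ha1 ha2 hnu, zero_add]
  exact circleRes_algebraMap C a ha1 ha2 (c : K) c.2 _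

/-- the reductions of the functions of a level are regular at every point of the circle -/
theorem regAt_level_circle (Q : Place k (RatFunc k)) {i : ι} {y : F} (hy : y ∈ (L.level i).R) :
    RegAt (circleRing C a ha1 ha2) (circleRes C a ha1 ha2) Q.adicValuation y := by
  refine ⟨level_mem_circle L C hC a ha1 ha2 hy, ?_⟩
  obtain ⟨c, hc⟩ := circleRes_level_const L C hC a ha1 ha2 (⟨y, hy⟩ : (L.level i).R)
  rw [hc]
  exact Fermat.Agent.BR.ZeroCount.adicValuation_algebraMap_le_one Q c

/-- the reductions of the non-units of a level vanish identically on the circle -/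
theorem smallAt_level_circle (Q : Place k (RatFunc k)) {i : ι} (y : (L.level i).R)
    (hy : ¬ IsUnit y) :
    SmallAt (circleRing C a ha1 ha2) (circleRes C a ha1 ha2) Q.adicValuation (y : F) := by
  refine ⟨level_mem_circle L C hC a ha1 ha2 y.2, ?_⟩
  rw [circleRes_level_eq_zero L C hC a ha1 ha2 hy, map_zero]
  exact zero_lt_one

/-- `a⁻¹ • u` lies in the ring of the circle -/
theorem coord_mem_circle' : a⁻¹ • L.u ∈ circleRing C a ha1 ha2 := by
  have h := coord_mem_circleRing C a ha1 ha2
  rwa [hC] at h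

/-- `a⁻¹ • u` reduces to `X` -/
theorem circleRes_coord' :
    circleRes C a ha1 ha2 ⟨a⁻¹ • L.u, coord_mem_circle' L C hC a ha1 ha2⟩ = RatFunc.X := by
  have h := circleRes_coord C a ha1 ha2
  have e : (⟨a⁻¹ • C.u, coord_mem_circleRing C a ha1 ha2⟩ : circleRing C a ha1 ha2) =
      ⟨a⁻¹ • L.u, coord_mem_circle' L C hC a ha1 ha2⟩ :=
    Subtype.ext (show a⁻¹ • C.u = a⁻¹ • L.u by rw [hC])
  rwa [e] at h

/-- `a • u⁻¹` lies in the ring of the circle -/
theorem gaugeInv_mem_circle : a • L.u⁻¹ ∈ circleRing C a ha1 ha2 := by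
  have h := coord_inv_mem_circleRing C a ha1 ha2
  have e : (a⁻¹ • C.u)⁻¹ = a • L.u⁻¹ := by
    rw [hC, Algebra.smul_def, Algebra.smul_def, mul_inv, map_inv₀, inv_inv]
  rwa [e] at h

/-- `a • u⁻¹` reduces to `X⁻¹` -/
theorem circleRes_gaugeInv :
    circleRes C a ha1 ha2 ⟨a • L.u⁻¹, gaugeInv_mem_circle L C hC a ha1 ha2⟩ = RatFunc.X⁻¹ := by
  have ha0 : a ≠ 0 := gauge_ne_zero ha1
  have hu0 : L.u ≠ 0 := L.u_ne_zero
  have h1 : (⟨a⁻¹ • L.u, coord_mem_circle' L C hC a ha1 ha2⟩ : circleRing C a ha1 ha2) *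
      ⟨a • L.u⁻¹, gaugeInv_mem_circle L C hC a ha1 ha2⟩ = 1 := by
    apply Subtype.ext
    show (a⁻¹ • L.u) * (a • L.u⁻¹) = 1
    rw [Algebra.smul_def, Algebra.smul_def, map_inv₀]
    have haF : algebraMap K F a ≠ 0 := (_root_.map_ne_zero _).mpr ha0
    field_simp
  have h2 := congrArg (circleRes C a ha1 ha2) h1
  rw [map_mul, circleRes_coord' L C hC a ha1 ha2, map_one] at h2
  exact eq_inv_of_mul_eq_one_right h2

omit hC in
/-- `X⁻¹` is a uniformizer at `X = ∞` -/
theorem ord_placeInfty_X_inv : (placeInfty k).ord ((RatFunc.X : RatFunc k)⁻¹) = 1 := by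
  rw [Place.ord_inv, ord_placeInfty_X]
  rfl

omit hC in
/-- `X` is a uniformizer at `X = 0` -/
theorem ord_placeAt_zero_X : (placeAt k 0).ord (RatFunc.X : RatFunc k) = 1 := by
  have h := ord_placeAt_X_sub (0 : k)
  rwa [map_zero, sub_zero] at h

/-- `a • u⁻¹` reduces to a function vanishing at `X = ∞` -/
theorem smallAt_gaugeInv :
    SmallAt (circleRing C a ha1 ha2) (circleRes C a ha1 ha2) (placeInfty k).adicValuation
      (a • L.u⁻¹) := by
  refine ⟨gaugeInv_mem_circle L C hC a ha1 ha2, ?_⟩
  rw [circleRes_gaugeInv L C hC a ha1 ha2, adicValuation_lt_one_iff, ord_placeInfty_X_inv]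
  exact Or.inr one_pos

variable (h1 : A.valuation L.thick < A.valuation a)

/-- **The outer sub-annulus and the circle**: the local rings of the levels of `{|a| < |u| < 1}`
lie in the ring of the circle `|u| = |a|`, their reductions are regular at `X = ∞` and the
reductions of their non-units vanish at `X = ∞`. -/
theorem outer_circle {i : ι} (hi : a ∈ (L.level i).K') :
    (∀ y ∈ (subHyp L h1 ha2 i hi).subRing,
      RegAt (circleRing C a ha1 ha2) (circleRes C a ha1 ha2) (placeInfty k).adicValuation y) ∧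
    ∀ y : (subHyp L h1 ha2 i hi).subRing, ¬ IsUnit y →
      SmallAt (circleRing C a ha1 ha2) (circleRes C a ha1 ha2) (placeInfty k).adicValuation
        (y : F) :=
  subRing_dominated (circleRing C a ha1 ha2)
    (circleRes C a ha1 ha2) (circleRes_eq_zero_iff C a ha1 ha2) (placeInfty k).adicValuation
    (subHyp L h1 ha2 i hi)
    (fun _ hy => regAt_level_circle L C hC a ha1 ha2 (placeInfty k) hy)
    (fun y hy => smallAt_level_circle L C hC a ha1 ha2 (placeInfty k) y hy)
    (smallAt_gaugeInv L C hC a ha1 ha2)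

/-- the generator `Y' = (a⁻¹ * thick) • v⁻¹` of the inner chart is `(a⁻¹ • u) * ε₀⁻¹` -/
theorem inner_gen_eq : (a⁻¹ * L.thick) • L.swap.u⁻¹ = (a⁻¹ • L.u) * L.ε₀⁻¹ := by
  have hv0 : L.v ≠ 0 := L.swap.u_ne_zero
  have hε0 : L.ε₀ ≠ 0 := by
    intro h0
    have h3 := L.uv
    rw [h0, smul_zero] at h3
    rcases mul_eq_zero.mp h3 with h | h
    · exact L.u_ne_zero h
    · exact hv0 h
  have h3 : L.u * L.v = algebraMap K F L.thick * L.ε₀ := by rw [L.uv, Algebra.smul_def]
  rw [AnnulusLevels.swap_u, Algebra.smul_def, Algebra.smul_def, map_mul]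
  have h4 : algebraMap K F L.thick = L.u * L.v * L.ε₀⁻¹ := by
    rw [h3, mul_assoc, mul_inv_cancel₀ hε0, mul_one]
  rw [h4]
  field_simp

/-- the generator of the inner chart reduces to a function vanishing at `X = 0` -/
theorem smallAt_inner_gen :
    SmallAt (circleRing C a ha1 ha2) (circleRes C a ha1 ha2) (placeAt k 0).adicValuation
      ((a⁻¹ * L.thick) • L.swap.u⁻¹) := by
  obtain ⟨i⟩ := L.nonempty
  rw [inner_gen_eq L C hC a]
  have hreg := regAt_level_circle L C hC a ha1 ha2 (placeAt k 0) (L.level i).ε₀_inv_mem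
  have hsmall : SmallAt (circleRing C a ha1 ha2) (circleRes C a ha1 ha2)
      (placeAt k 0).adicValuation (a⁻¹ • L.u) := by
    refine ⟨coord_mem_circle' L C hC a ha1 ha2, ?_⟩
    rw [circleRes_coord' L C hC a ha1 ha2, adicValuation_lt_one_iff, ord_placeAt_zero_X]
    exact Or.inr one_pos
  have := hreg.mul_small hsmall
  rwa [mul_comm] at this

/-- **The inner sub-annulus and the circle**: the local rings of the levels of
`{|thick| < |u| < |a|}` lie in the ring of the circle `|u| = |a|`, their reductions are regular at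
`X = 0` and the reductions of their non-units vanish at `X = 0`. -/
theorem inner_circle {i : ι} (hi : a ∈ (L.level i).K') :
    (∀ y ∈ innerRing L a h1 ha2 hi,
      RegAt (circleRing C a ha1 ha2) (circleRes C a ha1 ha2) (placeAt k 0).adicValuation y) ∧
    ∀ y : innerRing L a h1 ha2 hi, ¬ IsUnit y →
      SmallAt (circleRing C a ha1 ha2) (circleRes C a ha1 ha2) (placeAt k 0).adicValuation
        (y : F) :=
  subRing_dominated (circleRing C a ha1 ha2)
    (circleRes C a ha1 ha2) (circleRes_eq_zero_iff C a ha1 ha2) (placeAt k 0).adicValuation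
    (innerHyp L a h1 ha2 hi)
    (fun _ hy => regAt_level_circle L C hC a ha1 ha2 (placeAt k 0) (i := i) hy)
    (fun y hy => smallAt_level_circle L C hC a ha1 ha2 (placeAt k 0) (i := i) y hy)
    (smallAt_inner_gen L C hC a ha1 ha2)

end Fermat.Agent.BR3.SubAnnPlaces
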