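import Mathlib
import Fermat.Agent.BR3.SubAnnPlaces.CircleDom
import Fermat.Agent.BR3.CircleN.OfLevels
import Fermat.Agent.BR3.SRef.OneLevel

/-!
# Program C (S36), node A7s (SUB-ANNULUS LEVELS), branch side, part 3: the branch data of the two
sub-annuli in the one-level refinement `S'ref`

`S₀` a semistable setup, `I : CircleInputsN S₀`, `a₀` the gauges, `sref I a₀ hadm` helper14's
refinement (`BR3/SRef/OneLevel`).  `e` a node, `L : AnnulusLevels A (tube S₀ e) ι` levels of its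
tube with branch data `X : BranchDataN S₀ e L`, the chart of `e` in `I` being the chart of `L`
(`hu : (I.ch e).u = L.u`, `hth : (I.ch e).thick = L.thick`).

* `outer_src`, `inner_tgt` : the local rings of the outer (inner) sub-annulus are dominated by the
  branch `s₁ e` of `src e` (`s₂ e` of `tgt e`);
* `branchDataN_of_regAt` : a constructor of `CircleN.BranchDataN` from `RegAt/SmallAt` statements;
* `outerLevelsRef`, `innerLevelsRef` : the two families as levels of the tubes of the nodes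
  `outer e`, `inner e` of `S'ref`;
* `branchDataN_outer : BranchDataN (sref I a₀ hadm) (outer I a₀ hadm e) (outerLevelsRef …)`,
  `branchDataN_inner : BranchDataN (sref I a₀ hadm) (inner I a₀ hadm e) (innerLevelsRef …)`
  (the separation of the other components of `S'ref` is an input `hsep`).
-/

set_option autoImplicit false
set_option linter.unusedSectionVars false
set_option linter.unusedVariables false

noncomputable section

namespace Fermat.Agent.BR3.SubAnnPlaces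

open AlgebraicCurve IsLocalRing Fermat.Agent.Red Fermat.Agent.BR.Centre Fermat.Agent.BR.SS
  Fermat.Agent.BR.Refine Fermat.Agent.BR.S0 Fermat.Agent.BR.Circle Fermat.Agent.BR.P1
  Fermat.Agent.BR3.SubAnnChart Fermat.Agent.BR3.SRef Fermat.Agent.BR3.CircleN
open Fermat.Agent.BR.S0.AnnulusChartOfLevels.BranchData (res_const_eq_zero)

variable {K : Type} {F : Type*} [Field K] [Field F] [Algebra K F]
  {A : ValuationSubring K} [IsAlgClosed (ResidueField A)]
  {ι₀ : Type} {Ft₀ : ι₀ → Type} [∀ v, Field (Ft₀ v)] [∀ v, Algebra (ResidueField A) (Ft₀ v)]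
  {ν₀ : Type}

local notation "k" => ResidueField A

/-! ### A constructor of `BranchDataN` -/

section Constructor

variable {S₀ : SemistableSetup (F := F) A (residue A) ι₀ Ft₀ ν₀} {e : ν₀} {ι : Type*}
  (L : AnnulusLevels A (tube S₀ e) ι)

/-- the branch statements of a family of levels at one branch `(w, Q)` -/
def BranchAt (w : ι₀) (Q : Place k (Ft₀ w)) : Prop :=
  ∀ i, (∀ y ∈ (L.level i).R, RegAt (S₀.O w) (S₀.res w) Q.adicValuation y) ∧
    ∀ y : (L.level i).R, ¬ IsUnit y → SmallAt (S₀.O w) (S₀.res w) Q.adicValuation (y : F)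

/-- some function of some level reduces to a uniformizer at the branch `(w, Q)` -/
def UnifAt (w : ι₀) (Q : Place k (Ft₀ w)) : Prop :=
  ∃ i, ∃ t ∈ (L.level i).R, ∃ ht : t ∈ S₀.O w, Q.ord (S₀.res w ⟨t, ht⟩) = 1

variable {L}

theorem branchDataN_of_regAt
    (h₁ : BranchAt L (S₀.src e) (S₀.s₁ e)) (h₂ : BranchAt L (S₀.tgt e) (S₀.s₂ e))
    (v_src : L.v ∈ (S₀.O (S₀.src e)).nonunits) (u_tgt : L.u ∈ (S₀.O (S₀.tgt e)).nonunits)
    (unif₁ : UnifAt L (S₀.src e) (S₀.s₁ e)) (unif₂ : UnifAt L (S₀.tgt e) (S₀.s₂ e))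
    (sep_comp : ∀ w, w ≠ S₀.src e → w ≠ S₀.tgt e → SepComp S₀ e w) : BranchDataN S₀ e L where
  le₁ := fun i y hy => ((h₁ i).1 y hy).1
  le₂ := fun i y hy => ((h₂ i).1 y hy).1
  branch₁ := fun i y hy => ((h₁ i).2 y hy).2
  branch₂ := fun i y hy => ((h₂ i).2 y hy).2
  v_src := v_src
  u_tgt := u_tgt
  unif₁ := by
    obtain ⟨i, t, ht, ht', h⟩ := unif₁
    exact ⟨i, ⟨t, ht⟩, h⟩
  unif₂ := by
    obtain ⟨i, t, ht, ht', h⟩ := unif₂
    exact ⟨i, ⟨t, ht⟩, h⟩
  sep_comp := sep_comp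

end Constructor

/-- elimination of an equality of points of the special fibre -/
theorem sigma_point_elim {α : Type*} {β : α → Type*} {a a' : α} {b : β a} {b' : β a'}
    (h : (⟨a, b⟩ : Sigma β) = ⟨a', b'⟩) {motive : ∀ x : α, β x → Prop} (hm : motive a' b') :
    motive a b := by
  cases h
  exact hm

/-! ### The old components -/

section Old

variable {S₀ : SemistableSetup (F := F) A (residue A) ι₀ Ft₀ ν₀} {e : ν₀} {ι : Type*}
  {L : AnnulusLevels A (tube S₀ e) ι} (X : BranchDataN S₀ e L) (r : K)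
  (h1 : A.valuation L.thick < A.valuation r) (h2 : A.valuation r < 1)

include X

/-- an element of `O w` with nonzero residue has its inverse in `O w` -/
theorem inv_mem_of_res_ne_zero (w : ι₀) {x : F} (hx : x ∈ S₀.O w)
    (h0 : S₀.res w ⟨x, hx⟩ ≠ 0) : x⁻¹ ∈ S₀.O w := by
  have hu : IsUnit (⟨x, hx⟩ : S₀.O w) := by
    by_contra hnu
    exact h0 ((S₀.res_eq_zero_iff w _).mpr hnu)
  obtain ⟨y, hy⟩ := hu.exists_right_inv
  have h1 : x * (y : F) = 1 := congrArg Subtype.val hy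
  rw [← eq_inv_of_mul_eq_one_right h1]
  exact y.2

/-- a constant of absolute value `< 1` times a function of `O w` has residue `0` -/
theorem smallAt_smul_of_lt (w : ι₀) (Q : Place k (Ft₀ w)) {c : K} (hc : A.valuation c < 1)
    {x : F} (hx : x ∈ S₀.O w) : SmallAt (S₀.O w) (S₀.res w) Q.adicValuation (c • x) := by
  have hcA : c ∈ A := (A.valuation_le_one_iff c).mp hc.le
  have hcO : algebraMap K F c ∈ S₀.O w := (S₀.algebraMap_mem_iff w c).mpr hcA
  have hmem : c • x ∈ S₀.O w := by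
    rw [Algebra.smul_def]
    exact (S₀.O w).mul_mem _ _ hcO hx
  refine ⟨hmem, ?_⟩
  have e1 : (⟨c • x, hmem⟩ : S₀.O w) = ⟨algebraMap K F c, hcO⟩ * ⟨x, hx⟩ :=
    Subtype.ext (Algebra.smul_def c x)
  rw [e1, map_mul, res_const_eq_zero (S₀ := S₀) w hc hcO, zero_mul, map_zero]
  exact zero_lt_one

/-- `u⁻¹` is integral on the component `src e` -/
theorem u_inv_src : L.u⁻¹ ∈ S₀.O (S₀.src e) := by
  refine inv_mem_of_res_ne_zero X (S₀.src e) X.u_src ?_
  intro h0
  have := X.ord_src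
  rw [h0, Place.ord_zero] at this
  exact zero_ne_one this

/-- `v⁻¹` is integral on the component `tgt e` -/
theorem v_inv_tgt : L.v⁻¹ ∈ S₀.O (S₀.tgt e) := by
  obtain ⟨i⟩ := X.nonempty
  have h3 : (L.thick • L.u⁻¹)⁻¹ ∈ S₀.O (S₀.tgt e) := by
    refine inv_mem_of_res_ne_zero X (S₀.tgt e) X.v_tgt ?_
    intro h0
    have := X.ord_tgt
    rw [h0, Place.ord_zero] at this
    exact zero_ne_one this
  have h4 : L.v⁻¹ = (L.thick • L.u⁻¹)⁻¹ * L.ε₀⁻¹ := by
    rw [X.thick_smul_inv_eq, mul_inv, inv_inv, mul_assoc, mul_inv_cancel₀ X.eps_ne_zero, mul_one]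
  rw [h4]
  exact (S₀.O (S₀.tgt e)).mul_mem _ _ h3 (X.le₂ i _ (L.level i).ε₀_inv_mem)

theorem branchAt_src : BranchAt L (S₀.src e) (S₀.s₁ e) := fun i =>
  ⟨fun y hy => ⟨X.le₁ i y hy, X.adicValuation_red₁_le_one i ⟨y, hy⟩⟩,
    fun y hy => ⟨X.le₁ i y y.2, X.branch₁ i y hy⟩⟩

theorem branchAt_tgt : BranchAt L (S₀.tgt e) (S₀.s₂ e) := fun i =>
  ⟨fun y hy => ⟨X.le₂ i y hy, X.adicValuation_red₂_le_one i ⟨y, hy⟩⟩,
    fun y hy => ⟨X.le₂ i y y.2, X.branch₂ i y hy⟩⟩

/-- **The outer sub-annulus and the component `src e`**: the local rings of the levels of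
`{|r| < |u| < 1}` lie in `O (src e)`, their residues are regular at the branch `s₁ e` and the
residues of their non-units vanish there. -/
theorem outer_src {i : ι} (hi : r ∈ (L.level i).K') :
    (∀ y ∈ (subHyp L h1 h2 i hi).subRing,
      RegAt (S₀.O (S₀.src e)) (S₀.res (S₀.src e)) (S₀.s₁ e).adicValuation y) ∧
    ∀ y : (subHyp L h1 h2 i hi).subRing, ¬ IsUnit y →
      SmallAt (S₀.O (S₀.src e)) (S₀.res (S₀.src e)) (S₀.s₁ e).adicValuation (y : F) :=
  subRing_dominated (S₀.O (S₀.src e)) (S₀.res (S₀.src e)) (S₀.res_eq_zero_iff _)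
    (S₀.s₁ e).adicValuation (subHyp L h1 h2 i hi) ((branchAt_src X) i).1 ((branchAt_src X) i).2
    (smallAt_smul_of_lt X (S₀.src e) (S₀.s₁ e) h2 (u_inv_src X))

include h1 in
/-- **The inner sub-annulus and the component `tgt e`**. -/
theorem inner_tgt {i : ι} (hi : r ∈ (L.level i).K') :
    (∀ y ∈ innerRing L r h1 h2 hi,
      RegAt (S₀.O (S₀.tgt e)) (S₀.res (S₀.tgt e)) (S₀.s₂ e).adicValuation y) ∧
    ∀ y : innerRing L r h1 h2 hi, ¬ IsUnit y →
      SmallAt (S₀.O (S₀.tgt e)) (S₀.res (S₀.tgt e)) (S₀.s₂ e).adicValuation (y : F) :=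
  subRing_dominated (S₀.O (S₀.tgt e)) (S₀.res (S₀.tgt e)) (S₀.res_eq_zero_iff _)
    (S₀.s₂ e).adicValuation (innerHyp L r h1 h2 hi) ((branchAt_tgt X) i).1
    ((branchAt_tgt X) i).2
    (smallAt_smul_of_lt X (S₀.tgt e) (S₀.s₂ e) (inner_h2 L r h1 h2) (v_inv_tgt X))

/-- a constant of absolute value `< 1` times a function of `O w` is a non-unit of `O w` -/
theorem smul_mem_nonunits_of_lt (w : ι₀) {c : K} (hc : A.valuation c < 1)
    {x : F} (hx : x ∈ S₀.O w) : c • x ∈ (S₀.O w).nonunits := by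
  have hcA : c ∈ A := (A.valuation_le_one_iff c).mp hc.le
  have hcO : algebraMap K F c ∈ S₀.O w := (S₀.algebraMap_mem_iff w c).mpr hcA
  have hmem : c • x ∈ S₀.O w := by
    rw [Algebra.smul_def]
    exact (S₀.O w).mul_mem _ _ hcO hx
  rw [ValuationSubring.mem_nonunits_iff_exists_mem_maximalIdeal]
  refine ⟨hmem, (IsLocalRing.mem_maximalIdeal _).mpr ?_⟩
  rw [mem_nonunits_iff, ← S₀.res_eq_zero_iff]
  have e1 : (⟨c • x, hmem⟩ : S₀.O w) = ⟨algebraMap K F c, hcO⟩ * ⟨x, hx⟩ :=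
    Subtype.ext (Algebra.smul_def c x)
  rw [e1, map_mul, res_const_eq_zero (S₀ := S₀) w hc hcO, zero_mul]

end Old

/-! ### The two nodes of `S'ref` over a node of `S₀` -/

section Ref

variable {S₀ : SemistableSetup (F := F) A (residue A) ι₀ Ft₀ ν₀}
  (I : CircleInputsN S₀) (a₀ : ν₀ → K) (hadm : ∀ e, I.adm e (a₀ e)) (e : ν₀) {ι : Type*}
  (L : AnnulusLevels A (tube S₀ e) ι)
  (hu : (I.ch e).u = L.u) (hth : (I.ch e).thick = L.thick)

include hadm hth in
theorem gauge_h1 : A.valuation L.thick < A.valuation (a₀ e) := by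
  have := (hadm e).1
  rwa [AnnulusChartN.toCore_thick, hth] at this

include hadm in
theorem gauge_h2 : A.valuation (a₀ e) < 1 := (hadm e).2

include hu in
/-- the tube of the outer node of `S'ref` is the tube of the outer sub-annulus -/
theorem tube_outer_eq :
    tube (sref I a₀ hadm) (outer I a₀ hadm e) = subTube A (tube S₀ e) L.u (a₀ e) := by
  rw [tube_outer, hu]
  rfl

include hu in
/-- the tube of the inner node of `S'ref` is the tube of the inner sub-annulus -/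
theorem tube_inner_eq :
    tube (sref I a₀ hadm) (inner I a₀ hadm e) = innerTube L.core (a₀ e) := by
  rw [tube_inner, hu]
  rfl

variable (hT : ∀ (i : ι) (P : Place K F), CentredAt A (L.level i).R P → P ∈ tube S₀ e)

/-- **The levels of the outer node of `S'ref`.** -/
def outerLevelsRef
    (hPL : ∀ (i : ι) (hi : a₀ e ∈ (L.level i).K')
      (p : Ideal (subHyp L (gauge_h1 I a₀ hadm e L hth) (gauge_h2 I a₀ hadm e) i hi).subRing),
      p.IsPrime → p ≠ ⊥ →
      (⟨algebraMap K F (L.level i).ϖ,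
        (subHyp L (gauge_h1 I a₀ hadm e L hth) (gauge_h2 I a₀ hadm e) i hi).unif_mem_subRing⟩ :
        (subHyp L (gauge_h1 I a₀ hadm e L hth) (gauge_h2 I a₀ hadm e) i hi).subRing) ∉ p →
      ∃ P : Place K F,
        CentredAt A (subHyp L (gauge_h1 I a₀ hadm e L hth) (gauge_h2 I a₀ hadm e) i hi).subRing P ∧
        ∀ y : (subHyp L (gauge_h1 I a₀ hadm e L hth) (gauge_h2 I a₀ hadm e) i hi).subRing,
          evalAt P (y : F) = 0 ↔ y ∈ p) :
    AnnulusLevels A (tube (sref I a₀ hadm) (outer I a₀ hadm e))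
      {i : ι // a₀ e ∈ (L.level i).K'} :=
  levelsCongrTube (subLevels L (gauge_h1 I a₀ hadm e L hth) (gauge_h2 I a₀ hadm e) hT hPL)
    (tube_outer_eq I a₀ hadm e L hu)

/-- **The levels of the inner node of `S'ref`.** -/
def innerLevelsRef
    (hPL : ∀ (i : ι) (hi : a₀ e ∈ (L.level i).K')
      (p : Ideal (innerRing L (a₀ e) (gauge_h1 I a₀ hadm e L hth) (gauge_h2 I a₀ hadm e) hi)),
      p.IsPrime → p ≠ ⊥ →
      (⟨algebraMap K F (L.level i).ϖ,
        unif_mem_innerRing L (a₀ e) (gauge_h1 I a₀ hadm e L hth) (gauge_h2 I a₀ hadm e) hi⟩ :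
        innerRing L (a₀ e) (gauge_h1 I a₀ hadm e L hth) (gauge_h2 I a₀ hadm e) hi) ∉ p →
      ∃ P : Place K F,
        CentredAt A (innerRing L (a₀ e) (gauge_h1 I a₀ hadm e L hth) (gauge_h2 I a₀ hadm e) hi) P ∧
        ∀ y : innerRing L (a₀ e) (gauge_h1 I a₀ hadm e L hth) (gauge_h2 I a₀ hadm e) hi,
          evalAt P (y : F) = 0 ↔ y ∈ p) :
    AnnulusLevels A (tube (sref I a₀ hadm) (inner I a₀ hadm e))
      {i : ι // a₀ e ∈ (L.level i).K'} :=
  levelsCongrTube (innerLevels L (a₀ e) (gauge_h1 I a₀ hadm e L hth) (gauge_h2 I a₀ hadm e) hT hPL)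
    (tube_inner_eq I a₀ hadm e L hu)

variable (X : BranchDataN S₀ e L)

include hadm hu hth hT X in
/-- there is a level whose constant field contains the gauge -/
theorem exists_gauge_level (i : ι) :
    ∃ l : {i : ι // a₀ e ∈ (L.level i).K'}, (L.level i).R ≤ (L.level l.1).R := by
  obtain ⟨l, h1, -, h3⟩ := L.exists_level_const i (a₀ e)
  exact ⟨⟨l, h3⟩, h1⟩

include X in
/-- **The branch data of the outer node of `S'ref`** (source `src e` at `s₁ e`, target the
exceptional line at `X = ∞`). -/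
theorem branchDataN_outer
    (hPL : ∀ (i : ι) (hi : a₀ e ∈ (L.level i).K')
      (p : Ideal (subHyp L (gauge_h1 I a₀ hadm e L hth) (gauge_h2 I a₀ hadm e) i hi).subRing),
      p.IsPrime → p ≠ ⊥ →
      (⟨algebraMap K F (L.level i).ϖ,
        (subHyp L (gauge_h1 I a₀ hadm e L hth) (gauge_h2 I a₀ hadm e) i hi).unif_mem_subRing⟩ :
        (subHyp L (gauge_h1 I a₀ hadm e L hth) (gauge_h2 I a₀ hadm e) i hi).subRing) ∉ p →
      ∃ P : Place K F,
        CentredAt A (subHyp L (gauge_h1 I a₀ hadm e L hth) (gauge_h2 I a₀ hadm e) i hi).subRing P ∧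
        ∀ y : (subHyp L (gauge_h1 I a₀ hadm e L hth) (gauge_h2 I a₀ hadm e) i hi).subRing,
          evalAt P (y : F) = 0 ↔ y ∈ p)
    (hsep : ∀ w, w ≠ (sref I a₀ hadm).src (outer I a₀ hadm e) →
      w ≠ (sref I a₀ hadm).tgt (outer I a₀ hadm e) →
      SepComp (sref I a₀ hadm) (outer I a₀ hadm e) w) :
    BranchDataN (sref I a₀ hadm) (outer I a₀ hadm e)
      (outerLevelsRef I a₀ hadm e L hu hth hT hPL) := by
  have h1 := gauge_h1 I a₀ hadm e L hth
  have h2 := gauge_h2 I a₀ hadm e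
  have hC : (I.ch e).toCore.u = L.u := hu
  obtain ⟨i₀⟩ := X.nonempty
  obtain ⟨l₀, -⟩ := exists_gauge_level I a₀ hadm e L hu hth hT X i₀
  refine branchDataN_of_regAt (S₀ := sref I a₀ hadm) (e := outer I a₀ hadm e)
    (L := outerLevelsRef I a₀ hadm e L hu hth hT hPL) ?_ ?_ ?_ ?_ ?_ ?_ hsep
  · -- the source branch
    intro i
    exact outer_src X (a₀ e) h1 h2 i.2
  · -- the target branch: `X = ∞` on the exceptional line
    refine sigma_point_elim (sref_tgtPt_outer I a₀ hadm e)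
      (motive := fun w Q => BranchAt (S₀ := sref I a₀ hadm) (e := outer I a₀ hadm e)
        (outerLevelsRef I a₀ hadm e L hu hth hT hPL) w Q) ?_
    intro i
    exact outer_circle L (I.ch e).toCore hC (a₀ e) (hadm e).1 (hadm e).2 h1 i.2
  · -- `v = a₀ • u⁻¹` vanishes identically on `src e`
    exact smul_mem_nonunits_of_lt X (S₀.src e) h2 (u_inv_src X)
  · -- `u` vanishes identically on the exceptional line
    refine sigma_point_elim (sref_tgtPt_outer I a₀ hadm e)
      (motive := fun w _ => L.u ∈ ((sref I a₀ hadm).O w).nonunits) ?_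
    show L.u ∈ (circleRing (I.ch e).toCore (a₀ e) (hadm e).1 (hadm e).2).nonunits
    have hmem := level_mem_circle L (I.ch e).toCore hC (a₀ e) (hadm e).1 (hadm e).2
      (L.level i₀).u_mem
    rw [ValuationSubring.mem_nonunits_iff_exists_mem_maximalIdeal]
    refine ⟨hmem, (IsLocalRing.mem_maximalIdeal _).mpr ?_⟩
    rw [mem_nonunits_iff, ← circleRes_eq_zero_iff]
    exact circleRes_level_eq_zero L (I.ch e).toCore hC (a₀ e) (hadm e).1 (hadm e).2
      (y := (L.level i₀).uR) (L.level i₀).not_isUnit_uR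
  · -- a uniformizer at `s₁ e`
    obtain ⟨i, t, ht⟩ := X.unif₁
    obtain ⟨l, hl⟩ := exists_gauge_level I a₀ hadm e L hu hth hT X i
    exact ⟨l, (t : F), (subHyp L h1 h2 l.1 l.2).le_subRing (hl t.2), X.le₁ i t t.2, ht⟩
  · -- a uniformizer at `X = ∞`: `a₀ • u⁻¹ ↦ X⁻¹`
    refine sigma_point_elim (sref_tgtPt_outer I a₀ hadm e)
      (motive := fun w Q => UnifAt (S₀ := sref I a₀ hadm) (e := outer I a₀ hadm e)
        (outerLevelsRef I a₀ hadm e L hu hth hT hPL) w Q) ?_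
    refine ⟨l₀, a₀ e • L.u⁻¹, (subHyp L h1 h2 l₀.1 l₀.2).Y_mem_subRing,
      gaugeInv_mem_circle L (I.ch e).toCore hC (a₀ e) (hadm e).1 (hadm e).2, ?_⟩
    show (placeInfty k).ord (circleRes (I.ch e).toCore (a₀ e) (hadm e).1 (hadm e).2
      ⟨a₀ e • L.u⁻¹, _⟩) = 1
    rw [circleRes_gaugeInv L (I.ch e).toCore hC (a₀ e) (hadm e).1 (hadm e).2]
    exact ord_placeInfty_X_inv

include X in
/-- **The branch data of the inner node of `S'ref`** (source the exceptional line at `X = 0`,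
target `tgt e` at `s₂ e`). -/
theorem branchDataN_inner
    (hPL : ∀ (i : ι) (hi : a₀ e ∈ (L.level i).K')
      (p : Ideal (innerRing L (a₀ e) (gauge_h1 I a₀ hadm e L hth) (gauge_h2 I a₀ hadm e) hi)),
      p.IsPrime → p ≠ ⊥ →
      (⟨algebraMap K F (L.level i).ϖ,
        unif_mem_innerRing L (a₀ e) (gauge_h1 I a₀ hadm e L hth) (gauge_h2 I a₀ hadm e) hi⟩ :
        innerRing L (a₀ e) (gauge_h1 I a₀ hadm e L hth) (gauge_h2 I a₀ hadm e) hi) ∉ p →
      ∃ P : Place K F,
        CentredAt A (innerRing L (a₀ e) (gauge_h1 I a₀ hadm e L hth) (gauge_h2 I a₀ hadm e) hi) P ∧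
        ∀ y : innerRing L (a₀ e) (gauge_h1 I a₀ hadm e L hth) (gauge_h2 I a₀ hadm e) hi,
          evalAt P (y : F) = 0 ↔ y ∈ p)
    (hsep : ∀ w, w ≠ (sref I a₀ hadm).src (inner I a₀ hadm e) →
      w ≠ (sref I a₀ hadm).tgt (inner I a₀ hadm e) →
      SepComp (sref I a₀ hadm) (inner I a₀ hadm e) w) :
    BranchDataN (sref I a₀ hadm) (inner I a₀ hadm e)
      (innerLevelsRef I a₀ hadm e L hu hth hT hPL) := by
  have h1 := gauge_h1 I a₀ hadm e L hth
  have h2 := gauge_h2 I a₀ hadm e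
  have hC : (I.ch e).toCore.u = L.u := hu
  obtain ⟨i₀⟩ := X.nonempty
  obtain ⟨l₀, hl₀⟩ := exists_gauge_level I a₀ hadm e L hu hth hT X i₀
  have ha0 : a₀ e ≠ 0 := by
    intro h0
    rw [h0, map_zero] at h1
    exact not_lt_zero h1
  -- `a₀⁻¹ • u = Y' * ε₀`
  have hgen : (a₀ e)⁻¹ • L.u = ((a₀ e)⁻¹ * L.thick) • L.swap.u⁻¹ * L.ε₀ := by
    rw [inner_gen_eq L (I.ch e).toCore hC (a₀ e), mul_assoc, inv_mul_cancel₀ X.eps_ne_zero,
      mul_one]
  refine branchDataN_of_regAt (S₀ := sref I a₀ hadm) (e := inner I a₀ hadm e)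
    (L := innerLevelsRef I a₀ hadm e L hu hth hT hPL) ?_ ?_ ?_ ?_ ?_ ?_ hsep
  · -- the source branch: `X = 0` on the exceptional line
    intro i
    exact inner_circle L (I.ch e).toCore hC (a₀ e) (hadm e).1 (hadm e).2 h1 i.2
  · -- the target branch
    refine sigma_point_elim (sref_tgtPt_inner I a₀ hadm e)
      (motive := fun w Q => BranchAt (S₀ := sref I a₀ hadm) (e := inner I a₀ hadm e)
        (innerLevelsRef I a₀ hadm e L hu hth hT hPL) w Q) ?_
    intro i
    exact inner_tgt X (a₀ e) h1 h2 i.2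
  · -- `v` vanishes identically on the exceptional line
    show L.v ∈ (circleRing (I.ch e).toCore (a₀ e) (hadm e).1 (hadm e).2).nonunits
    have hmem := level_mem_circle L (I.ch e).toCore hC (a₀ e) (hadm e).1 (hadm e).2
      (L.level i₀).v_mem
    rw [ValuationSubring.mem_nonunits_iff_exists_mem_maximalIdeal]
    refine ⟨hmem, (IsLocalRing.mem_maximalIdeal _).mpr ?_⟩
    rw [mem_nonunits_iff, ← circleRes_eq_zero_iff]
    exact circleRes_level_eq_zero L (I.ch e).toCore hC (a₀ e) (hadm e).1 (hadm e).2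
      (y := (L.level i₀).vR) (L.level i₀).not_isUnit_vR
  · -- `a₀⁻¹ • u` vanishes identically on `tgt e`
    refine sigma_point_elim (sref_tgtPt_inner I a₀ hadm e)
      (motive := fun w _ => (a₀ e)⁻¹ • L.u ∈ ((sref I a₀ hadm).O w).nonunits) ?_
    show (a₀ e)⁻¹ • L.u ∈ (S₀.O (S₀.tgt e)).nonunits
    have h3 : (a₀ e)⁻¹ • L.u = ((a₀ e)⁻¹ * L.thick) • (L.v⁻¹ * L.ε₀) := by
      rw [hgen, AnnulusLevels.swap_u, Algebra.smul_def, Algebra.smul_def, mul_assoc]
    rw [h3]
    exact smul_mem_nonunits_of_lt X (S₀.tgt e) (inner_h2 L (a₀ e) h1 h2)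
      ((S₀.O (S₀.tgt e)).mul_mem _ _ (v_inv_tgt X) (X.le₂ i₀ _ (L.level i₀).ε₀_mem))
  · -- a uniformizer at `X = 0`: `a₀⁻¹ • u ↦ X`
    refine ⟨l₀, (a₀ e)⁻¹ • L.u, ?_,
      coord_mem_circle' L (I.ch e).toCore hC (a₀ e) (hadm e).1 (hadm e).2, ?_⟩
    · show (a₀ e)⁻¹ • L.u ∈ innerRing L (a₀ e) h1 h2 l₀.2
      rw [hgen]
      exact (innerRing L (a₀ e) h1 h2 l₀.2).mul_mem (innerHyp L (a₀ e) h1 h2 l₀.2).Y_mem_subRing
        (le_innerRing L (a₀ e) h1 h2 l₀.2 (L.level l₀.1).ε₀_mem)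
    · show (placeAt k 0).ord (circleRes (I.ch e).toCore (a₀ e) (hadm e).1 (hadm e).2
        ⟨(a₀ e)⁻¹ • L.u, _⟩) = 1
      rw [circleRes_coord' L (I.ch e).toCore hC (a₀ e) (hadm e).1 (hadm e).2]
      exact ord_placeAt_zero_X
  · -- a uniformizer at `s₂ e`
    refine sigma_point_elim (sref_tgtPt_inner I a₀ hadm e)
      (motive := fun w Q => UnifAt (S₀ := sref I a₀ hadm) (e := inner I a₀ hadm e)
        (innerLevelsRef I a₀ hadm e L hu hth hT hPL) w Q) ?_
    obtain ⟨i, t, ht⟩ := X.unif₂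
    obtain ⟨l, hl⟩ := exists_gauge_level I a₀ hadm e L hu hth hT X i
    exact ⟨l, (t : F), le_innerRing L (a₀ e) h1 h2 l.2 (hl t.2), X.le₂ i t t.2, ht⟩

end Ref

end Fermat.Agent.BR3.SubAnnPlaces
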