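import Mathlib
import Fermat.Agent.BR.S0.AnnulusDescent
import Fermat.Agent.BR.Circle.Basic
import Fermat.Agent.BR.Circle.DenseLevel

/-!
# Program C (S36), node A7s (SUB-ANNULUS LEVELS), places side, part 1: `htr` from the circle

`L : S0.AnnulusLevels A T ι` the levels of the tube of a node, `a : K` a gauge with
`|thick| < |a| < 1`, `N = L.level i` one level, `V = Circle.circleRing L.core a` the valuation ring
of the circle `|u| = |a|`.

* `level_le_circleRing` : `N.R ≤ V`;
* `circleRes_eq_zero_of_not_isUnit` : the non-units of `N.R` reduce to `0` on the circle;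
* `circleRes_mem_range` : the functions of `N.R` reduce to CONSTANTS on the circle;
* `circleRes_gauge_inv` : `a • u⁻¹ ∈ V` reduces to `X⁻¹`;
* `htr_of_levels` : **the input `htr` of `SubAnnChart.ChartCore`**: a polynomial relation
  `P(a • u⁻¹) = 0` with coefficients in `N.R` has all its coefficients in the maximal ideal;
  `htr_of_levels_aeval` : the same with `aeval Y P = 0` in any `N.R`-algebra `B → F`.
-/

set_option autoImplicit false
set_option linter.unusedSectionVars false

noncomputable section

namespace Fermat.Agent.BR3.SubAnnPlaces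

open AlgebraicCurve IsLocalRing Polynomial Fermat.Agent.Red Fermat.Agent.BR.Centre
  Fermat.Agent.BR.Circle Fermat.Agent.BR.S0

variable {K : Type} {F : Type*} [Field K] [Field F] [Algebra K F]
  {A : ValuationSubring K} [IsAlgClosed (ResidueField A)] {T : Set (Place K F)} {ι : Type*}
  (L : AnnulusLevels A T ι) (i : ι) (a : K)
  (ha1 : A.valuation L.core.thick < A.valuation a) (ha2 : A.valuation a < 1)

local notation "k" => ResidueField A

include ha1 ha2

/-- the level rings lie in the ring of every circle of the annulus -/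
theorem level_le_circleRing {y : F} (hy : y ∈ (L.level i).R) :
    y ∈ circleRing L.core a ha1 ha2 := by
  refine mem_circleRing_of_integral (C := L.core) ha1 ha2 fun P hP => ?_
  exact ⟨evalAt P y, (L.level i).evalAt_memA hP hy, (L.level i).isValueAt_evalAt hP hy⟩

/-- the inclusion of a level ring into the ring of the circle -/
def levelToCircle : (L.level i).R →+* circleRing L.core a ha1 ha2 where
  toFun y := ⟨(y : F), level_le_circleRing L i a ha1 ha2 y.2⟩
  map_one' := rfl
  map_mul' _ _ := rfl
  map_zero' := rfl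
  map_add' _ _ := rfl

@[simp] theorem coe_levelToCircle (y : (L.level i).R) :
    ((levelToCircle L i a ha1 ha2 y : circleRing L.core a ha1 ha2) : F) = (y : F) := rfl

/-- the reduction of a level ring on the circle -/
def levelRes : (L.level i).R →+* RatFunc k :=
  (circleRes L.core a ha1 ha2).comp (levelToCircle L i a ha1 ha2)

/-- the non-units of a level reduce to `0` on the circle -/
theorem levelRes_eq_zero_of_not_isUnit {y : (L.level i).R} (hy : ¬ IsUnit y) :
    levelRes L i a ha1 ha2 y = 0 := by
  classical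
  show circleRes L.core a ha1 ha2 (levelToCircle L i a ha1 ha2 y) = 0
  rw [circleRes_eq_zero_iff]
  intro hu
  obtain ⟨z, hz⟩ := hu.exists_right_inv
  -- `z = y⁻¹` has a reduction on the circle
  obtain ⟨zb, E, hE⟩ := z.2
  obtain ⟨P, hP, hv, hn⟩ := exists_generic_point L.core a ha1 ha2 E
  obtain ⟨d', hd', h1, -⟩ := hE P hP hv hn
  have h2 : IsValueAt P (y : F) (evalAt P (y : F)) := (L.level i).isValueAt_evalAt hP y.2
  have h3 : IsValueAt P ((y : F) * (z : F)) (evalAt P (y : F) * d') := h2.mul h1
  have h4 : (y : F) * (z : F) = 1 := congrArg Subtype.val hz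
  rw [h4] at h3
  have h5 : evalAt P (y : F) * d' = 1 := (h3.unique (isValueAt_one P))
  have h6 := congrArg A.valuation h5
  rw [map_mul, map_one] at h6
  have h7 : A.valuation (evalAt P (y : F)) < 1 := (L.level i).valuation_evalAt_lt_one hP hy
  have h8 : A.valuation d' ≤ 1 := (A.valuation_le_one_iff _).mpr hd'
  have : A.valuation (evalAt P (y : F)) * A.valuation d' < 1 :=
    mul_lt_one_of_nonneg_of_lt_one_left zero_le h7 h8
  rw [h6] at this
  exact lt_irrefl _ this

/-- the functions of a level reduce to constants on the circle -/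
theorem levelRes_mem_range (y : (L.level i).R) :
    ∃ c : k, levelRes L i a ha1 ha2 y = algebraMap k (RatFunc k) c := by
  obtain ⟨c, h, hnu⟩ := (L.level i).residue y
  refine ⟨residue A c, ?_⟩
  have h1 : y = (y - ⟨algebraMap K F c, h⟩) + ⟨algebraMap K F c, h⟩ := by ring
  rw [h1, map_add, levelRes_eq_zero_of_not_isUnit L i a ha1 ha2 hnu, zero_add]
  exact circleRes_algebraMap L.core a ha1 ha2 (c : K) c.2 _

/-- `a • u⁻¹` lies in the ring of the circle `|u| = |a|` -/
theorem gauge_smul_inv_mem : a • L.u⁻¹ ∈ circleRing L.core a ha1 ha2 := by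
  have h := coord_inv_mem_circleRing L.core a ha1 ha2
  have ha0 : a ≠ 0 := gauge_ne_zero ha1
  have e : (a⁻¹ • L.core.u)⁻¹ = a • L.u⁻¹ := by
    rw [AnnulusLevels.core_u, Algebra.smul_def, Algebra.smul_def, mul_inv, map_inv₀, inv_inv]
  rwa [e] at h

/-- `a • u⁻¹` reduces to `X⁻¹` on the circle `|u| = |a|` -/
theorem circleRes_gauge_smul_inv :
    circleRes L.core a ha1 ha2 ⟨a • L.u⁻¹, gauge_smul_inv_mem L a ha1 ha2⟩ = RatFunc.X⁻¹ := by
  have ha0 : a ≠ 0 := gauge_ne_zero ha1
  have hu0 : L.u ≠ 0 := L.u_ne_zero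
  have h1 : (⟨a⁻¹ • L.core.u, coord_mem_circleRing L.core a ha1 ha2⟩ :
      circleRing L.core a ha1 ha2) * ⟨a • L.u⁻¹, gauge_smul_inv_mem L a ha1 ha2⟩ = 1 := by
    apply Subtype.ext
    show (a⁻¹ • L.core.u) * (a • L.u⁻¹) = 1
    rw [AnnulusLevels.core_u, Algebra.smul_def, Algebra.smul_def, map_inv₀]
    have haF : algebraMap K F a ≠ 0 := (_root_.map_ne_zero _).mpr ha0
    field_simp
  have h2 := congrArg (circleRes L.core a ha1 ha2) h1
  rw [map_mul, circleRes_coord, map_one] at h2
  exact eq_inv_of_mul_eq_one_right h2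

/-- **The input `htr` of `SubAnnChart.ChartCore`, from the circle**: a polynomial relation
`P(a • u⁻¹) = 0` with coefficients in a level ring has all its coefficients in the maximal ideal
of the level. -/
theorem htr_of_levels (P : ((L.level i).R)[X])
    (hP : eval₂ ((L.level i).R.subtype) (a • L.u⁻¹) P = 0) (j : ℕ) : ¬ IsUnit (P.coeff j) := by
  classical
  set r := levelRes L i a ha1 ha2 with hr
  -- the relation, inside the ring of the circle, then reduced
  have h1 : eval₂ (levelToCircle L i a ha1 ha2)
      (⟨a • L.u⁻¹, gauge_smul_inv_mem L a ha1 ha2⟩ : circleRing L.core a ha1 ha2) P = 0 := by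
    apply Subtype.ext
    have := hom_eval₂ P (levelToCircle L i a ha1 ha2)
      ((circleRing L.core a ha1 ha2).subtype)
      (⟨a • L.u⁻¹, gauge_smul_inv_mem L a ha1 ha2⟩ : circleRing L.core a ha1 ha2)
    rw [ValuationSubring.subtype_apply] at this
    rw [this]
    exact hP
  have h2 : eval₂ r (RatFunc.X⁻¹ : RatFunc k) P = 0 := by
    have := hom_eval₂ P (levelToCircle L i a ha1 ha2) (circleRes L.core a ha1 ha2)
      (⟨a • L.u⁻¹, gauge_smul_inv_mem L a ha1 ha2⟩ : circleRing L.core a ha1 ha2)
    rw [h1, map_zero, circleRes_gauge_smul_inv] at this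
    exact this.symm
  -- the coefficients are constants
  have h3 : P.map r ∈ Polynomial.lifts (algebraMap k (RatFunc k)) := by
    rw [Polynomial.lifts_iff_coeff_lifts]
    intro n
    obtain ⟨c, hc⟩ := levelRes_mem_range L i a ha1 ha2 (P.coeff n)
    rw [coeff_map]
    exact ⟨c, hc.symm⟩
  obtain ⟨Q, hQ⟩ := h3
  have hQ' : Q.map (algebraMap k (RatFunc k)) = P.map r := hQ
  have h4 : aeval (RatFunc.X⁻¹ : RatFunc k) Q = 0 := by
    rw [aeval_def, ← eval_map, hQ', eval_map]
    exact h2
  have htr : Transcendental k (RatFunc.X⁻¹ : RatFunc k) := fun halg =>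
    RatFunc.transcendental_X (K := k) (IsAlgebraic.inv_iff.mp halg)
  have hQ0 : Q = 0 := by
    by_contra hne
    exact htr ⟨Q, hne, h4⟩
  have h5 : P.map r = 0 := by rw [← hQ', hQ0, Polynomial.map_zero]
  have h6 : r (P.coeff j) = 0 := by
    have := congrArg (fun R => Polynomial.coeff R j) h5
    simpa using this
  intro hu
  have h7 : IsUnit (r (P.coeff j)) := hu.map r
  rw [h6] at h7
  exact not_isUnit_zero h7

/-- The same, for any `N.R`-algebra `B` mapping to `F` compatibly (e.g. `B = N.R[Y] ⊆ F`): the
hypothesis `htr` of `SubAnnChart.ChartCore` verbatim (up to `mem_maximalIdeal`). -/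
theorem htr_of_levels_aeval {B : Type*} [CommRing B] [Algebra (L.level i).R B] (j : B →+* F)
    (hj : ∀ r : (L.level i).R, j (algebraMap (L.level i).R B r) = (r : F)) (Y : B)
    (hY : j Y = a • L.u⁻¹) (P : ((L.level i).R)[X]) (hP : aeval Y P = 0) (n : ℕ) :
    ¬ IsUnit (P.coeff n) := by
  refine htr_of_levels L i a ha1 ha2 P ?_ n
  have h1 := hom_eval₂ P (algebraMap (L.level i).R B) j Y
  rw [← aeval_def, hP, map_zero, hY] at h1
  have h2 : j.comp (algebraMap (L.level i).R B) = (L.level i).R.subtype :=
    RingHom.ext fun r => hj r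
  rw [h2] at h1
  exact h1.symm

end Fermat.Agent.BR3.SubAnnPlaces
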